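import Fermat.Agent.S25.H865.AlgEquivFamily

/-!
# Row S25, B6-formal (3): algebraic equivalence to zero through affine rigidified families

Let `K ⊇ k` be algebraically closed.  If a rigidified line bundle `L` over `Spec K` is
algebraically equivalent to zero (Prelude's `IsAlgEquivZero`), then `L` is linked to the unit
bundle by a chain of TWO families of RIGIDIFIED line bundles over AFFINE integral `K`-schemes of
finite type (`AffineFamily`), each evaluated at two `K`-points.

Consequence (`pointAlgEquivZero_induction`): any isomorphism-invariant property of rigidified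
line bundles over `Spec K` which holds for the unit bundle and is constant along affine integral
families holds for every bundle algebraically equivalent to zero.  This is how "degree 0" is
deduced from `FibrewiseAlgEquivZero` once the degree is known to be locally constant in affine
families.
-/

set_option autoImplicit false
universe u
open CategoryTheory CategoryTheory.Limits AlgebraicGeometry AlgebraicGeometry.RelPicard
  NeronModelInfra GoodReductionJacobian

namespace Fermat.Agent.S25.H865

noncomputable section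

/-- Every morphism `Spec A ⟶ T` to an `R`-scheme is a morphism of `R`-schemes for a suitable
`R`-algebra structure on `A`. -/
theorem exists_algebra_of_specHom {R : Type u} [CommRing R] {T : Scheme.{u}}
    (t : T ⟶ Spec (CommRingCat.of R)) (A : Type u) [CommRing A]
    (s : Spec (CommRingCat.of A) ⟶ T) : ∃ (_ : Algebra R A), s ≫ t = specStr R A := by
  let φ : CommRingCat.of R ⟶ CommRingCat.of A := Spec.preimage (s ≫ t)
  refine ⟨φ.hom.toAlgebra, ?_⟩
  let _ : Algebra R A := φ.hom.toAlgebra
  have h1 : Spec.map φ = s ≫ t := Spec.map_preimage _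
  rw [← h1]
  rfl

/-- An invertible module is trivial on an affine chart around any given point. -/
theorem exists_chart_trivialization {X : Scheme.{u}} (F : X.Modules)
    (hF : Scheme.Modules.IsInvertible F) (x : X) :
    ∃ (R : CommRingCat.{u}) (j : Spec R ⟶ X) (_ : IsOpenImmersion j), x ∈ Set.range j ∧
      Nonempty ((Scheme.Modules.pullback j).obj F ≅ SheafOfModules.unit (Spec R).ringCatSheaf) := by
  obtain ⟨U, hxU, ⟨e⟩⟩ := hF.exists_trivialization x
  obtain ⟨R, j, hj, hxj, hjU⟩ := Scheme.exists_affine_mem_range_and_range_subset hxU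
  refine ⟨R, j, hj, hxj, ⟨?_⟩⟩
  have hsub : Set.range j ⊆ Set.range U.ι := by
    rw [Scheme.Opens.range_ι]; exact hjU
  let g : Spec R ⟶ U.toScheme := IsOpenImmersion.lift U.ι j hsub
  have hg : g ≫ U.ι = j := IsOpenImmersion.lift_fac _ _ _
  exact (pullbackTriangleIso hg F).symm ≪≫ (Scheme.Modules.pullback g).mapIso e ≪≫
    Scheme.Modules.pullbackUnitIso g

variable {k : Type u} [Field k] {C : Scheme.{u}} {c : C ⟶ Spec (CommRingCat.of k)}
  {ε : SchemeHomOver (𝟙 (Spec (CommRingCat.of k))) c}

/-- A family of rigidified line bundles over an affine integral `K`-scheme of finite type. -/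
structure AffineFamily (c : C ⟶ Spec (CommRingCat.of k))
    (ε : SchemeHomOver (𝟙 (Spec (CommRingCat.of k))) c) (K : Type u) [Field K] [Algebra k K] where
  /-- the coordinate ring of the base -/
  A : Type u
  [commRing : CommRing A]
  [isDomain : IsDomain A]
  [algebra : Algebra k A]
  [algebraK : Algebra K A]
  [isScalarTower : IsScalarTower k K A]
  [finiteType : Algebra.FiniteType K A]
  /-- the family -/
  M : RigidifiedLineBundle c ε (specStr k A)

attribute [instance] AffineFamily.commRing AffineFamily.isDomain AffineFamily.algebra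
  AffineFamily.algebraK AffineFamily.isScalarTower AffineFamily.finiteType

/-- The fibre of an affine family at a `K`-point of the base. -/
def AffineFamily.fibre {K : Type u} [Field K] [Algebra k K] (𝔉 : AffineFamily c ε K)
    (a : 𝔉.A →ₐ[K] K) : RigidifiedLineBundle c ε (specStr k K) :=
  𝔉.M.pullbackAlong (specHomOver k (a.restrictScalars k))

/-- Two rigidified line bundles over `Spec K` are *linked* if they are (isomorphic to) two
fibres of one affine family. -/
def Linked {K : Type u} [Field K] [Algebra k K]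
    (L L' : RigidifiedLineBundle c ε (specStr k K)) : Prop :=
  ∃ (𝔉 : AffineFamily c ε K) (a b : 𝔉.A →ₐ[K] K), RIso (𝔉.fibre a) L ∧ RIso (𝔉.fibre b) L'

section Chart

variable {K : Type u} [Field K] [Algebra k K] {T' : Scheme.{u}}
  (h : T' ⟶ Spec (CommRingCat.of K))

/-- A `K`-point of `T'` which lies in the image of an affine chart `j : Spec A ⟶ T'` comes from
a `K`-algebra homomorphism `A → K`. -/
theorem exists_algHom_of_mem_range {A : Type u} [CommRing A] [Algebra K A]
    (j : Spec (CommRingCat.of A) ⟶ T') [IsOpenImmersion j] (hj : j ≫ h = specStr K A)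
    (s : SchemeHomOver (𝟙 (Spec (CommRingCat.of K))) h)
    (hs : s.1 (default : PrimeSpectrum K) ∈ Set.range j) :
    ∃ a : A →ₐ[K] K, Spec.map (CommRingCat.ofHom a.toRingHom) ≫ j = s.1 := by
  have hsub : Set.range s.1 ⊆ Set.range j := by
    rintro _ ⟨y, rfl⟩
    have hy : y = (default : PrimeSpectrum K) := Subsingleton.elim (α := PrimeSpectrum K) _ _
    rw [hy]; exact hs
  let g : Spec (CommRingCat.of K) ⟶ Spec (CommRingCat.of A) := IsOpenImmersion.lift j s.1 hsub
  have hg : g ≫ j = s.1 := IsOpenImmersion.lift_fac _ _ _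
  let a₀ : CommRingCat.of A ⟶ CommRingCat.of K := Spec.preimage g
  have ha₀ : Spec.map a₀ = g := Spec.map_preimage _
  have hcomp : CommRingCat.ofHom (algebraMap K A) ≫ a₀ = 𝟙 (CommRingCat.of K) := by
    apply Spec.map_injective
    rw [Spec.map_comp, ha₀, Spec.map_id]
    have : g ≫ specStr K A = 𝟙 _ := by rw [← hj, ← Category.assoc, hg, s.2]
    exact this
  have hcomm : ∀ x : K, a₀.hom (algebraMap K A x) = x := fun x => by
    have := congrArg (fun f => f.hom x) hcomp
    simpa using this
  refine ⟨{ a₀.hom with commutes' := fun x => hcomm x }, ?_⟩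
  rw [← hg, ← ha₀]
  rfl


/-- The affine family cut out of a family `N` on `C ×_k T'` by an affine chart of `T'` on which
the restriction of `N` to the rigidifying section is trivial.  Its fibres at the `K`-points of the
chart are the fibres of `N`. -/
theorem exists_affineFamily_of_chart [LocallyOfFiniteType h] [IsIntegral T']
    (N : (pullback c (h ≫ specStr k K)).Modules) (hN : Scheme.Modules.IsInvertible N)
    (A : Type u) [CommRing A] (j : Spec (CommRingCat.of A) ⟶ T') [IsOpenImmersion j]
    (hne : (Set.range j).Nonempty)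
    (τ : (Scheme.Modules.pullback j).obj
        ((Scheme.Modules.pullback (rigSection c (h ≫ specStr k K) ε)).obj N) ≅
      SheafOfModules.unit (Spec (CommRingCat.of A)).ringCatSheaf) :
    ∃ 𝔉 : AffineFamily c ε K, ∀ s : SchemeHomOver (𝟙 (Spec (CommRingCat.of K))) h,
      s.1 (default : PrimeSpectrum K) ∈ Set.range j →
      ∃ a : 𝔉.A →ₐ[K] K, Nonempty ((𝔉.fibre a).L ≅
        (Scheme.Modules.pullback (baseChangeSnd c (sectionOver (k := k) h s))).obj N) := by
  obtain ⟨instK, hj⟩ := exists_algebra_of_specHom h A j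
  let _ : Algebra k A := ((algebraMap K A).comp (algebraMap k K)).toAlgebra
  have : IsScalarTower k K A := IsScalarTower.of_algebraMap_eq (fun _ => rfl)
  -- `A` is a domain
  have : Nonempty (Spec (CommRingCat.of A)) := by
    obtain ⟨_, y, _⟩ := hne
    exact ⟨y⟩
  have : IsIntegral (Spec (CommRingCat.of A)) := isIntegral_of_isOpenImmersion j
  have : IsDomain A := (affine_isIntegral_iff (CommRingCat.of A)).mp inferInstance
  -- `A` is of finite type over `K`
  have : Algebra.FiniteType K A := by
    have h1 : LocallyOfFiniteType (j ≫ h) := inferInstance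
    rw [hj] at h1
    have h2 : RingHom.FiniteType (algebraMap K A) :=
      (HasRingHomProperty.Spec_iff (P := @LocallyOfFiniteType)).mp h1
    exact RingHom.finiteType_algebraMap.mp h2
  -- the structure morphism of the chart over `k`
  have hjk : j ≫ (h ≫ specStr k K) = specStr k A := by
    rw [← Category.assoc, hj]
    change Spec.map _ ≫ Spec.map _ = Spec.map _
    rw [← Spec.map_comp]
    rfl
  let J : SchemeHomOver (specStr k A) (h ≫ specStr k K) := ⟨j, hjk⟩
  let M : RigidifiedLineBundle c ε (specStr k A) :=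
    { L := (Scheme.Modules.pullback (baseChangeSnd c J)).obj N
      isInvertible := hN.pullback _
      rigidified := ⟨pullbackSquareIso (rigSection_baseChangeSnd c ε J) N ≪≫ τ⟩ }
  refine ⟨{ A := A, M := M }, fun s hs => ?_⟩
  obtain ⟨a, ha⟩ := exists_algHom_of_mem_range h j hj s hs
  refine ⟨a, ⟨?_⟩⟩
  have hpost : postComp J (specHomOver k (a.restrictScalars k)) = sectionOver (k := k) h s :=
    Subtype.ext ha
  exact pullbackTriangleIso
    ((baseChangeSnd_comp c J (specHomOver k (a.restrictScalars k))).trans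
      (congrArg (baseChangeSnd c) hpost)) N

end Chart

section Main

variable {K : Type u} [Field K] [IsAlgClosed K] [Algebra k K]

/-- **B6-formal (3)**: a rigidified line bundle over `Spec K` (`K` algebraically closed) which is
algebraically equivalent to zero is linked to the unit bundle by a chain of two affine integral
families of rigidified line bundles. -/
theorem exists_linked_chain_of_pointAlgEquivZero
    (L : RigidifiedLineBundle c ε (specStr k K)) (hL : PointAlgEquivZero L) :
    ∃ L₂ : RigidifiedLineBundle c ε (specStr k K),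
      Linked (RigidifiedLineBundle.unit (c := c) (ε := ε) (specStr k K)) L₂ ∧ Linked L₂ L := by
  obtain ⟨T', h, hft, hgi, N, hN, t₀, t₁, ⟨e₀⟩, ⟨e₁⟩⟩ :=
    (isAlgEquivZero_iff_hasConnectingFamily K L.L).1 hL
  have : Subsingleton (Spec (CommRingCat.of K)) :=
    inferInstanceAs (Subsingleton (PrimeSpectrum K))
  have : IsIntegral T' := GeometricallyIntegral.isIntegral_of_subsingleton h
  have : JacobsonSpace T' := LocallyOfFiniteType.jacobsonSpace h
  let F := (Scheme.Modules.pullback (rigSection c (h ≫ specStr k K) ε)).obj N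
  have hF : Scheme.Modules.IsInvertible F := hN.pullback _
  obtain ⟨R₀, j₀, hj₀, hx₀, ⟨τ₀⟩⟩ :=
    exists_chart_trivialization F hF (t₀.1 (default : PrimeSpectrum K))
  obtain ⟨R₁, j₁, hj₁, hx₁, ⟨τ₁⟩⟩ :=
    exists_chart_trivialization F hF (t₁.1 (default : PrimeSpectrum K))
  obtain ⟨𝔉₀, H₀⟩ := exists_affineFamily_of_chart (ε := ε) h N hN R₀ j₀ ⟨_, hx₀⟩ τ₀
  obtain ⟨𝔉₁, H₁⟩ := exists_affineFamily_of_chart (ε := ε) h N hN R₁ j₁ ⟨_, hx₁⟩ τ₁
  -- a closed point in the intersection of the two charts
  have hne : (Set.range j₀ ∩ Set.range j₁).Nonempty :=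
    nonempty_preirreducible_inter j₀.isOpenEmbedding.isOpen_range
      j₁.isOpenEmbedding.isOpen_range ⟨_, hx₀⟩ ⟨_, hx₁⟩
  obtain ⟨x₂, ⟨hx₂₀, hx₂₁⟩, hx₂⟩ := nonempty_inter_closedPoints hne
    (j₀.isOpenEmbedding.isOpen_range.inter j₁.isOpenEmbedding.isOpen_range).isLocallyClosed
  let t₂ : SchemeHomOver (𝟙 (Spec (CommRingCat.of K))) h :=
    ⟨pointOfClosedPoint h x₂ hx₂, pointOfClosedPoint_comp h x₂ hx₂⟩
  have ht₂ : t₂.1 (default : PrimeSpectrum K) = x₂ := pointOfClosedPoint_apply h x₂ hx₂ _
  obtain ⟨a₀, ⟨i₀⟩⟩ := H₀ t₀ hx₀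
  obtain ⟨b₀, ⟨i₀'⟩⟩ := H₀ t₂ (by rw [ht₂]; exact hx₂₀)
  obtain ⟨a₁, ⟨i₁⟩⟩ := H₁ t₂ (by rw [ht₂]; exact hx₂₁)
  obtain ⟨b₁, ⟨i₁'⟩⟩ := H₁ t₁ hx₁
  exact ⟨𝔉₀.fibre b₀, ⟨𝔉₀, a₀, b₀, ⟨i₀ ≪≫ e₀⟩, ⟨Iso.refl _⟩⟩,
    ⟨𝔉₁, a₁, b₁, ⟨i₁ ≪≫ i₀'.symm⟩, ⟨i₁' ≪≫ e₁⟩⟩⟩

/-- **Induction principle for algebraic equivalence.**  An isomorphism-invariant property of
rigidified line bundles over `Spec K` which holds for the unit bundle and is constant along the
fibres of every affine integral family holds for all bundles algebraically equivalent to zero. -/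
theorem pointAlgEquivZero_induction
    (P : RigidifiedLineBundle c ε (specStr k K) → Prop)
    (hiso : ∀ L L' : RigidifiedLineBundle c ε (specStr k K), RIso L L' → P L → P L')
    (hunit : P (RigidifiedLineBundle.unit (c := c) (ε := ε) (specStr k K)))
    (hfam : ∀ (𝔉 : AffineFamily c ε K) (a b : 𝔉.A →ₐ[K] K), P (𝔉.fibre a) → P (𝔉.fibre b))
    (L : RigidifiedLineBundle c ε (specStr k K)) (hL : PointAlgEquivZero L) : P L := by
  obtain ⟨L₂, ⟨𝔉₀, a₀, b₀, ha₀, hb₀⟩, ⟨𝔉₁, a₁, b₁, ha₁, hb₁⟩⟩ :=
    exists_linked_chain_of_pointAlgEquivZero L hL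
  have h0 : P (𝔉₀.fibre a₀) := hiso _ _ ⟨ha₀.some.symm⟩ hunit
  have h1 : P L₂ := hiso _ _ hb₀ (hfam 𝔉₀ a₀ b₀ h0)
  have h2 : P (𝔉₁.fibre a₁) := hiso _ _ ⟨ha₁.some.symm⟩ h1
  exact hiso _ _ hb₁ (hfam 𝔉₁ a₁ b₁ h2)

/-- The same induction principle with the family hypothesis unbundled. -/
theorem pointAlgEquivZero_induction'
    (P : RigidifiedLineBundle c ε (specStr k K) → Prop)
    (hiso : ∀ L L' : RigidifiedLineBundle c ε (specStr k K), RIso L L' → P L → P L')
    (hunit : P (RigidifiedLineBundle.unit (c := c) (ε := ε) (specStr k K)))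
    (hfam : ∀ (A : Type u) [CommRing A] [IsDomain A] [Algebra k A] [Algebra K A]
      [IsScalarTower k K A] [Algebra.FiniteType K A]
      (M : RigidifiedLineBundle c ε (specStr k A)) (a b : A →ₐ[K] K),
      P (M.pullbackAlong (specHomOver k (a.restrictScalars k))) →
        P (M.pullbackAlong (specHomOver k (b.restrictScalars k))))
    (L : RigidifiedLineBundle c ε (specStr k K)) (hL : PointAlgEquivZero L) : P L :=
  pointAlgEquivZero_induction P hiso hunit (fun 𝔉 a b => hfam 𝔉.A 𝔉.M a b) L hL

/-- Integer-valued form: an isomorphism-invariant "degree" which vanishes on the unit bundle and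
is constant along affine integral families vanishes on bundles algebraically equivalent to
zero. -/
theorem deg_eq_zero_of_pointAlgEquivZero {Z : Type*} (z : Z)
    (deg : RigidifiedLineBundle c ε (specStr k K) → Z)
    (hiso : ∀ L L' : RigidifiedLineBundle c ε (specStr k K), RIso L L' → deg L = deg L')
    (hunit : deg (RigidifiedLineBundle.unit (c := c) (ε := ε) (specStr k K)) = z)
    (hfam : ∀ (A : Type u) [CommRing A] [IsDomain A] [Algebra k A] [Algebra K A]
      [IsScalarTower k K A] [Algebra.FiniteType K A]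
      (M : RigidifiedLineBundle c ε (specStr k A)) (a b : A →ₐ[K] K),
      deg (M.pullbackAlong (specHomOver k (a.restrictScalars k))) =
        deg (M.pullbackAlong (specHomOver k (b.restrictScalars k))))
    (L : RigidifiedLineBundle c ε (specStr k K)) (hL : PointAlgEquivZero L) : deg L = z :=
  pointAlgEquivZero_induction' (fun L => deg L = z) (fun L L' h hLz => (hiso L L' h).symm.trans hLz)
    hunit (fun A _ _ _ _ _ _ M a b hab => (hfam A M a b).symm.trans hab) L hL

end Main

end

end Fermat.Agent.S25.H865
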