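import Fermat.Agent.S25.H865.AlgEquivPoints

/-!
# Row S25, B6-formal (2): algebraic equivalence to zero via families on `pullback c t'`

The Prelude's `IsAlgEquivZero (pullback.snd c (specStr k K)) L` uses a family living on the
iterated fibre product `pullback (pullback.snd c (specStr k K)) h`.  We restate it with the family
living on `pullback c (h ≫ specStr k K)`, i.e. as an invertible module on the base change of the
ORIGINAL curve `c` to the `k`-scheme `T'`.  Consequently the affine dictionary is only ever needed
for schemes of the form `pullback c t`.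
-/

set_option autoImplicit false
universe u
open CategoryTheory CategoryTheory.Limits AlgebraicGeometry AlgebraicGeometry.RelPicard
  NeronModelInfra GoodReductionJacobian

namespace Fermat.Agent.S25.H865

noncomputable section

/-- Pullback of modules along the two sides of a commutative square. -/
def pullbackSquareIso {W X Y Z : Scheme.{u}} {f : W ⟶ X} {g : X ⟶ Z} {f' : W ⟶ Y} {g' : Y ⟶ Z}
    (h : f ≫ g = f' ≫ g') (M : Z.Modules) :
    (Scheme.Modules.pullback f).obj ((Scheme.Modules.pullback g).obj M) ≅
      (Scheme.Modules.pullback f').obj ((Scheme.Modules.pullback g').obj M) :=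
  (Scheme.Modules.pullbackComp _ _).app M ≪≫ (Scheme.Modules.pullbackCongr h).app M ≪≫
    ((Scheme.Modules.pullbackComp _ _).app M).symm

/-- Pullback of modules along a composite that equals a single morphism. -/
def pullbackTriangleIso {W X Z : Scheme.{u}} {f : W ⟶ X} {g : X ⟶ Z} {f' : W ⟶ Z}
    (h : f ≫ g = f') (M : Z.Modules) :
    (Scheme.Modules.pullback f).obj ((Scheme.Modules.pullback g).obj M) ≅
      (Scheme.Modules.pullback f').obj M :=
  (Scheme.Modules.pullbackComp _ _).app M ≪≫ (Scheme.Modules.pullbackCongr h).app M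

/-- Pullback of modules along a composite that equals the identity. -/
def pullbackRetractIso {W X : Scheme.{u}} {f : W ⟶ X} {g : X ⟶ W}
    (h : f ≫ g = 𝟙 W) (M : W.Modules) :
    (Scheme.Modules.pullback f).obj ((Scheme.Modules.pullback g).obj M) ≅ M :=
  pullbackTriangleIso h M ≪≫ (Scheme.Modules.pullbackId W).app M

variable {k : Type u} [Field k] {C : Scheme.{u}} {c : C ⟶ Spec (CommRingCat.of k)}
  {ε : SchemeHomOver (𝟙 (Spec (CommRingCat.of k))) c}

/-- A section of `h : T' ⟶ Spec K`, as a morphism of `k`-schemes. -/
def sectionOver {K : Type u} [Field K] [Algebra k K] {T' : Scheme.{u}}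
    (h : T' ⟶ Spec (CommRingCat.of K)) (t₀ : SchemeHomOver (𝟙 (Spec (CommRingCat.of K))) h) :
    SchemeHomOver (specStr k K) (h ≫ specStr k K) :=
  ⟨t₀.1, by rw [← Category.assoc, t₀.2, Category.id_comp]⟩

/-- `L₀` on `C_K` is connected to the trivial bundle by a family of invertible modules on
`C ×_k T'`, where `T'` is a geometrically integral `K`-scheme locally of finite type. -/
def HasConnectingFamily (c : C ⟶ Spec (CommRingCat.of k)) (K : Type u) [Field K] [Algebra k K]
    (L₀ : (pullback c (specStr k K)).Modules) : Prop :=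
  ∃ (T' : Scheme.{u}) (h : T' ⟶ Spec (CommRingCat.of K)) (_ : LocallyOfFiniteType h)
    (_ : GeometricallyIntegral h) (N : (pullback c (h ≫ specStr k K)).Modules)
    (_ : Scheme.Modules.IsInvertible N)
    (t₀ t₁ : SchemeHomOver (𝟙 (Spec (CommRingCat.of K))) h),
    Nonempty ((Scheme.Modules.pullback (baseChangeSnd c (sectionOver (k := k) h t₀))).obj N ≅
        SheafOfModules.unit (pullback c (specStr k K)).ringCatSheaf) ∧
    Nonempty ((Scheme.Modules.pullback (baseChangeSnd c (sectionOver (k := k) h t₁))).obj N ≅ L₀)

section Comparison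

variable {K : Type u} [Field K] [Algebra k K] {T' : Scheme.{u}}
  (h : T' ⟶ Spec (CommRingCat.of K))

/-- The comparison `C_K ×_K T' ⟶ C ×_k T'`. -/
def famHom (c : C ⟶ Spec (CommRingCat.of k)) :
    pullback (pullback.snd c (specStr k K)) h ⟶ pullback c (h ≫ specStr k K) :=
  pullback.lift (pullback.fst (pullback.snd c (specStr k K)) h ≫ pullback.fst c (specStr k K))
    (pullback.snd (pullback.snd c (specStr k K)) h) (by
      rw [Category.assoc, pullback.condition, ← Category.assoc, pullback.condition,
        Category.assoc])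

/-- The comparison `C ×_k T' ⟶ C_K ×_K T'`. -/
def famInv (c : C ⟶ Spec (CommRingCat.of k)) :
    pullback c (h ≫ specStr k K) ⟶ pullback (pullback.snd c (specStr k K)) h :=
  pullback.lift
    (pullback.lift (pullback.fst c (h ≫ specStr k K)) (pullback.snd c (h ≫ specStr k K) ≫ h)
      (by rw [pullback.condition, Category.assoc]))
    (pullback.snd c (h ≫ specStr k K)) (pullback.lift_snd _ _ _)

@[reassoc]
theorem famHom_fst : famHom h c ≫ pullback.fst c (h ≫ specStr k K) =
    pullback.fst (pullback.snd c (specStr k K)) h ≫ pullback.fst c (specStr k K) :=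
  pullback.lift_fst _ _ _

@[reassoc]
theorem famHom_snd : famHom h c ≫ pullback.snd c (h ≫ specStr k K) =
    pullback.snd (pullback.snd c (specStr k K)) h :=
  pullback.lift_snd _ _ _

@[reassoc]
theorem famInv_snd : famInv h c ≫ pullback.snd (pullback.snd c (specStr k K)) h =
    pullback.snd c (h ≫ specStr k K) :=
  pullback.lift_snd _ _ _

@[reassoc]
theorem famInv_fst_fst : famInv h c ≫ pullback.fst (pullback.snd c (specStr k K)) h ≫
    pullback.fst c (specStr k K) = pullback.fst c (h ≫ specStr k K) := by
  simp only [famInv, pullback.lift_fst_assoc, pullback.lift_fst]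

@[reassoc]
theorem famInv_fst_snd : famInv h c ≫ pullback.fst (pullback.snd c (specStr k K)) h ≫
    pullback.snd c (specStr k K) = pullback.snd c (h ≫ specStr k K) ≫ h := by
  simp only [famInv, pullback.lift_fst_assoc, pullback.lift_snd]

theorem famHom_famInv : famHom h c ≫ famInv h c = 𝟙 _ := by
  apply pullback.hom_ext
  · apply pullback.hom_ext
    · simp only [Category.assoc, famInv_fst_fst, famHom_fst, Category.id_comp]
    · simp only [Category.assoc, famInv_fst_snd, famHom_snd_assoc, Category.id_comp]
      exact pullback.condition.symm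
  · simp only [Category.assoc, famInv_snd, famHom_snd, Category.id_comp]

theorem famInv_famHom : famInv h c ≫ famHom h c = 𝟙 _ := by
  apply pullback.hom_ext
  · simp only [Category.assoc, famHom_fst, famInv_fst_fst, Category.id_comp]
  · simp only [Category.assoc, famHom_snd, famInv_snd, Category.id_comp]

/-- The comparison isomorphism `C_K ×_K T' ≅ C ×_k T'`. -/
def famIso (c : C ⟶ Spec (CommRingCat.of k)) :
    pullback (pullback.snd c (specStr k K)) h ≅ pullback c (h ≫ specStr k K) where
  hom := famHom h c
  inv := famInv h c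
  hom_inv_id := famHom_famInv h
  inv_hom_id := famInv_famHom h

/-- The section `C_K ⟶ C_K ×_K Spec K` of the first projection. -/
def unitSection (c : C ⟶ Spec (CommRingCat.of k)) (K : Type u) [Field K] [Algebra k K] :
    pullback c (specStr k K) ⟶
      pullback (pullback.snd c (specStr k K)) (𝟙 (Spec (CommRingCat.of K))) :=
  pullback.lift (𝟙 _) (pullback.snd c (specStr k K)) (by simp)

theorem unitSection_fst : unitSection c K ≫ pullback.fst (pullback.snd c (specStr k K)) (𝟙 _) =
    𝟙 _ :=
  pullback.lift_fst _ _ _

theorem baseChangeSnd_famHom (t₀ : SchemeHomOver (𝟙 (Spec (CommRingCat.of K))) h) :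
    baseChangeSnd (pullback.snd c (specStr k K)) t₀ ≫ famHom h c =
      pullback.fst (pullback.snd c (specStr k K)) (𝟙 _) ≫
        baseChangeSnd c (sectionOver (k := k) h t₀) := by
  apply pullback.hom_ext
  · simp only [baseChangeSnd, sectionOver, Category.assoc, famHom_fst, pullback.lift_fst,
      pullback.lift_fst_assoc, Category.comp_id]
  · simp only [baseChangeSnd, sectionOver, Category.assoc, famHom_snd, pullback.lift_snd]
    rw [pullback.condition_assoc, Category.id_comp]

theorem unitSection_baseChangeSnd (t₀ : SchemeHomOver (𝟙 (Spec (CommRingCat.of K))) h) :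
    unitSection c K ≫ baseChangeSnd (pullback.snd c (specStr k K)) t₀ =
      baseChangeSnd c (sectionOver (k := k) h t₀) ≫ famInv h c := by
  have h1 : unitSection c K ≫ baseChangeSnd (pullback.snd c (specStr k K)) t₀ ≫ famHom h c =
      baseChangeSnd c (sectionOver (k := k) h t₀) := by
    rw [baseChangeSnd_famHom, ← Category.assoc, unitSection_fst, Category.id_comp]
  calc unitSection c K ≫ baseChangeSnd (pullback.snd c (specStr k K)) t₀
      = (unitSection c K ≫ baseChangeSnd (pullback.snd c (specStr k K)) t₀) ≫
          famHom h c ≫ famInv h c := by rw [famHom_famInv, Category.comp_id]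
    _ = baseChangeSnd c (sectionOver (k := k) h t₀) ≫ famInv h c := by
        rw [← h1]; simp only [Category.assoc]

end Comparison

/-- **B6-formal (2)**: the Prelude's `IsAlgEquivZero` on `C_K` is the existence of a connecting
family of invertible modules on `C ×_k T'`. -/
theorem isAlgEquivZero_iff_hasConnectingFamily (K : Type u) [Field K] [Algebra k K]
    (L₀ : (pullback c (specStr k K)).Modules) :
    IsAlgEquivZero (pullback.snd c (specStr k K)) L₀ ↔ HasConnectingFamily c K L₀ := by
  constructor
  · rintro ⟨T', h, hft, hgi, M, hM, t₀, t₁, ⟨e₀⟩, ⟨e₁⟩⟩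
    refine ⟨T', h, hft, hgi, (Scheme.Modules.pullback (famInv h c)).obj M,
      hM.pullback _, t₀, t₁, ⟨?_⟩, ⟨?_⟩⟩
    · exact pullbackSquareIso (unitSection_baseChangeSnd h t₀).symm M ≪≫
        (Scheme.Modules.pullback (unitSection c K)).mapIso e₀ ≪≫
        Scheme.Modules.pullbackUnitIso _
    · exact pullbackSquareIso (unitSection_baseChangeSnd h t₁).symm M ≪≫
        (Scheme.Modules.pullback (unitSection c K)).mapIso e₁ ≪≫
        pullbackRetractIso unitSection_fst L₀
  · rintro ⟨T', h, hft, hgi, N, hN, t₀, t₁, ⟨e₀⟩, ⟨e₁⟩⟩
    refine ⟨T', h, hft, hgi, (Scheme.Modules.pullback (famHom h c)).obj N,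
      hN.pullback _, t₀, t₁, ⟨?_⟩, ⟨?_⟩⟩
    · exact pullbackSquareIso (baseChangeSnd_famHom h t₀) N ≪≫
        (Scheme.Modules.pullback _).mapIso e₀ ≪≫ Scheme.Modules.pullbackUnitIso _
    · exact pullbackSquareIso (baseChangeSnd_famHom h t₁) N ≪≫
        (Scheme.Modules.pullback _).mapIso e₁

/-- **B6-formal (1)+(2)**: degree zero in the Prelude's sense, in terms of connecting families on
base changes of the original curve. -/
theorem fibrewiseAlgEquivZero_iff_hasConnectingFamily {T : Scheme.{u}}
    {t : T ⟶ Spec (CommRingCat.of k)} (M : RigidifiedLineBundle c ε t) :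
    FibrewiseAlgEquivZero M ↔
      ∀ (K : Type u) [Field K] [IsAlgClosed K] [Algebra k K]
        (s : SchemeHomOver (specStr k K) t), HasConnectingFamily c K (M.pullbackAlong s).L := by
  rw [fibrewiseAlgEquivZero_iff_points]
  refine forall_congr' fun K => forall_congr' fun _ => forall_congr' fun _ =>
    forall_congr' fun _ => forall_congr' fun s => ?_
  exact isAlgEquivZero_iff_hasConnectingFamily K _

end

end Fermat.Agent.S25.H865
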