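import Fermat.Agent.S25.Defs

/-!
# Row S25, B6-formal (1): `FibrewiseAlgEquivZero` tested on `k`-algebra points

`FibrewiseAlgEquivZero M` quantifies over arbitrary scheme morphisms `s : Spec K ⟶ T` and speaks
about the iterated fibre product `pullback (pullback.snd c t) s`.  Here we restate it in terms of
the rigidified line bundles `M.pullbackAlong s` over `specStr k K`, which live on
`pullback c (specStr k K)`: the shape handled by the affine dictionary.
-/

set_option autoImplicit false
universe u
open CategoryTheory CategoryTheory.Limits AlgebraicGeometry AlgebraicGeometry.RelPicard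
  NeronModelInfra GoodReductionJacobian

namespace Fermat.Agent.S25.H865

noncomputable section

variable {k : Type u} [Field k] {C : Scheme.{u}} {c : C ⟶ Spec (CommRingCat.of k)}
  {ε : SchemeHomOver (𝟙 (Spec (CommRingCat.of k))) c}

/-- A rigidified line bundle over the spectrum of a field `K ⊇ k` is *algebraically equivalent to
zero* if its underlying line bundle on `C_K = pullback c (specStr k K)` is (Prelude's
`IsAlgEquivZero`). -/
def PointAlgEquivZero {K : Type u} [Field K] [Algebra k K]
    (L : RigidifiedLineBundle c ε (specStr k K)) : Prop :=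
  IsAlgEquivZero (pullback.snd c (specStr k K)) L.L

theorem PointAlgEquivZero.congr {K : Type u} [Field K] [Algebra k K]
    {L L' : RigidifiedLineBundle c ε (specStr k K)} (h : RIso L L')
    (hL : PointAlgEquivZero L) : PointAlgEquivZero L' :=
  IsAlgEquivZero.of_iso h.some hL

/-- The fibre of the family over a point `s`, seen from `pullback c t'`. -/
theorem isAlgEquivZero_pullbackAlong_of_fibre {T : Scheme.{u}}
    {t : T ⟶ Spec (CommRingCat.of k)} {K : Type u} [Field K]
    {t' : Spec (CommRingCat.of K) ⟶ Spec (CommRingCat.of k)}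
    (M : RigidifiedLineBundle c ε t) (s : SchemeHomOver t' t)
    (h : IsAlgEquivZero (fibreAt c t s.1)
      ((Scheme.Modules.pullback (pullback.fst (pullback.snd c t) s.1)).obj M.L)) :
    IsAlgEquivZero (pullback.snd c t') (M.pullbackAlong s).L := by
  have hw : baseChangeSnd c s ≫ pullback.snd c t = pullback.snd c t' ≫ s.1 := by
    simp only [baseChangeSnd, pullback.lift_snd]
  let e : Limits.pullback c t' ⟶ Limits.pullback (pullback.snd c t) s.1 :=
    pullback.lift (baseChangeSnd c s) (pullback.snd c t') hw
  have he : e ≫ fibreAt c t s.1 = pullback.snd c t' := pullback.lift_snd _ _ _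
  have hfst : e ≫ pullback.fst (pullback.snd c t) s.1 = baseChangeSnd c s :=
    pullback.lift_fst _ _ _
  refine IsAlgEquivZero.of_iso ?_ (h.pullback e he)
  exact (Scheme.Modules.pullbackComp _ _).app M.L ≪≫
    (Scheme.Modules.pullbackCongr hfst).app M.L

/-- Conversely, the fibre over `s` is algebraically equivalent to zero as soon as the pulled-back
bundle on `pullback c t'` is. -/
theorem isAlgEquivZero_fibre_of_pullbackAlong {T : Scheme.{u}}
    {t : T ⟶ Spec (CommRingCat.of k)} {K : Type u} [Field K]
    {t' : Spec (CommRingCat.of K) ⟶ Spec (CommRingCat.of k)}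
    (M : RigidifiedLineBundle c ε t) (s : SchemeHomOver t' t)
    (h : IsAlgEquivZero (pullback.snd c t') (M.pullbackAlong s).L) :
    IsAlgEquivZero (fibreAt c t s.1)
      ((Scheme.Modules.pullback (pullback.fst (pullback.snd c t) s.1)).obj M.L) := by
  have hw : (pullback.fst (pullback.snd c t) s.1 ≫ pullback.fst c t) ≫ c =
      pullback.snd (pullback.snd c t) s.1 ≫ t' := by
    rw [Category.assoc, pullback.condition, ← Category.assoc, pullback.condition,
      Category.assoc, s.2]
  let f : Limits.pullback (pullback.snd c t) s.1 ⟶ Limits.pullback c t' :=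
    pullback.lift (pullback.fst (pullback.snd c t) s.1 ≫ pullback.fst c t)
      (pullback.snd (pullback.snd c t) s.1) hw
  have hf : f ≫ pullback.snd c t' = fibreAt c t s.1 := pullback.lift_snd _ _ _
  have hfst : f ≫ baseChangeSnd c s = pullback.fst (pullback.snd c t) s.1 := by
    apply pullback.hom_ext
    · simp only [f, baseChangeSnd, Category.assoc, pullback.lift_fst, Category.comp_id]
    · simp only [f, baseChangeSnd, Category.assoc, pullback.lift_snd, pullback.lift_snd_assoc]
      exact pullback.condition.symm
  refine IsAlgEquivZero.of_iso ?_ (h.pullback f hf)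
  exact (Scheme.Modules.pullbackComp _ _).app M.L ≪≫
    (Scheme.Modules.pullbackCongr hfst).app M.L

/-- Every morphism from the spectrum of a field to a `k`-scheme is a morphism of `k`-schemes for
a suitable `k`-algebra structure on the field. -/
theorem exists_algebra_of_point {T : Scheme.{u}} (t : T ⟶ Spec (CommRingCat.of k))
    (K : Type u) [Field K] (s : Spec (CommRingCat.of K) ⟶ T) :
    ∃ (_ : Algebra k K), s ≫ t = specStr k K := by
  let φ : CommRingCat.of k ⟶ CommRingCat.of K := Spec.preimage (s ≫ t)
  refine ⟨φ.hom.toAlgebra, ?_⟩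
  let _ : Algebra k K := φ.hom.toAlgebra
  have h1 : Spec.map φ = s ≫ t := Spec.map_preimage _
  rw [← h1]
  rfl

/-- **B6-formal (1)**: `FibrewiseAlgEquivZero` can be tested on the rigidified line bundles
`M.pullbackAlong s` over `Spec K`, for all algebraically closed fields `K ⊇ k` and all
`k`-morphisms `s : Spec K ⟶ T`. -/
theorem fibrewiseAlgEquivZero_iff_points {T : Scheme.{u}} {t : T ⟶ Spec (CommRingCat.of k)}
    (M : RigidifiedLineBundle c ε t) :
    FibrewiseAlgEquivZero M ↔
      ∀ (K : Type u) [Field K] [IsAlgClosed K] [Algebra k K]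
        (s : SchemeHomOver (specStr k K) t), PointAlgEquivZero (M.pullbackAlong s) := by
  constructor
  · intro hM K _ _ _ s
    exact isAlgEquivZero_pullbackAlong_of_fibre M s (hM K s.1)
  · intro h K _ _ s
    obtain ⟨_, hs⟩ := exists_algebra_of_point t K s
    exact isAlgEquivZero_fibre_of_pullbackAlong M (⟨s, hs⟩ : SchemeHomOver (specStr k K) t)
      (h K ⟨s, hs⟩)

/-- Over the spectrum of an algebraically closed field the two notions agree. -/
theorem fibrewiseAlgEquivZero_of_pointAlgEquivZero_pullback {T : Scheme.{u}}
    {t : T ⟶ Spec (CommRingCat.of k)} (M : RigidifiedLineBundle c ε t)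
    (h : ∀ (K : Type u) [Field K] [IsAlgClosed K] [Algebra k K]
        (s : SchemeHomOver (specStr k K) t), PointAlgEquivZero (M.pullbackAlong s)) :
    FibrewiseAlgEquivZero M :=
  (fibrewiseAlgEquivZero_iff_points M).2 h

theorem FibrewiseAlgEquivZero_pointAlgEquivZero {T : Scheme.{u}}
    {t : T ⟶ Spec (CommRingCat.of k)} {M : RigidifiedLineBundle c ε t}
    (hM : FibrewiseAlgEquivZero M) (K : Type u) [Field K] [IsAlgClosed K] [Algebra k K]
    (s : SchemeHomOver (specStr k K) t) : PointAlgEquivZero (M.pullbackAlong s) :=
  (fibrewiseAlgEquivZero_iff_points M).1 hM K s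

end

end Fermat.Agent.S25.H865
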