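import Fermat.Agent.S25.DefsDict
import Fermat.Agent.S25.H865.AlgEquivChain

/-!
# Row S25, block DICTDEG, direction (⇒): `FibrewiseAlgEquivZero M → G.Deg0`

Bridge from the formal chain lemma (`pointAlgEquivZero_induction`) to the frozen dictionary
language.  Inputs (all as hypotheses):

* the dictionary statements `Stmt.DictSections`, `Stmt.DictIso`, `Stmt.DictBC`, `Stmt.AlgBCExists`;
* `DictUnitField`: over algebraically closed fields the unit bundle corresponds to the unit
  gluing datum;
* three DEGREE facts: the degree is invariant under isomorphism (`DegIsoInvariant`), under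
  extension of the base field (`DegFieldInvariant`), and constant along families over integral
  affine bases (`DegConstOnDomains`).
-/

set_option autoImplicit false
universe u
open CategoryTheory CategoryTheory.Limits AlgebraicGeometry AlgebraicGeometry.RelPicard
  NeronModelInfra GoodReductionJacobian
open scoped TensorProduct

namespace Fermat.Agent.S25.H865

noncomputable section

section AlgFacts

variable (k : Type u) [Field k] (B₀ B₁ B₀₁ : Type u) [CommRing B₀] [CommRing B₁] [CommRing B₀₁]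
  [Algebra k B₀] [Algebra k B₁] [Algebra k B₀₁] [Algebra B₀ B₀₁] [Algebra B₁ B₀₁]
  [IsScalarTower k B₀ B₀₁] [IsScalarTower k B₁ B₀₁]

/-- DEGREE fact: the degree of a gluing datum over a field is an isomorphism invariant. -/
def DegIsoInvariant : Prop :=
  ∀ (K : Type u) [Field K] [Algebra k K] (G G' : CurveGD k B₀ B₁ B₀₁ K),
    G.IsIso G' → G.degree = G'.degree

/-- DEGREE fact: the degree is invariant under extension of the base field. -/
def DegFieldInvariant : Prop :=
  ∀ (K K' : Type u) [Field K] [Algebra k K] [Field K'] [Algebra k K'] (φ : K →ₐ[k] K')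
    (G : CurveGD k B₀ B₁ B₀₁ K) (G' : CurveGD k B₀ B₁ B₀₁ K'),
    CurveGD.IsBC φ G G' → G'.degree = G.degree

/-- DEGREE fact: the degree is constant along a family over an integral affine base (tested on
points with values in one field `K`). -/
def DegConstOnDomains : Prop :=
  ∀ (A : Type u) [CommRing A] [IsDomain A] [Algebra k A] (G : CurveGD k B₀ B₁ B₀₁ A)
    (K : Type u) [Field K] [Algebra k K] (a b : A →ₐ[k] K)
    (Ga Gb : CurveGD k B₀ B₁ B₀₁ K), CurveGD.IsBC a G Ga → CurveGD.IsBC b G Gb →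
      Ga.degree = Gb.degree

theorem degree_unit_eq_zero (K : Type u) [Field K] [Algebra k K] :
    (GlueDatum.unit K (K ⊗[k] B₀) (K ⊗[k] B₁) (K ⊗[k] B₀₁)).degree = 0 :=
  sub_self _

end AlgFacts

variable {k : Type u} [Field k] {C : Scheme.{u}} {c : C ⟶ Spec (CommRingCat.of k)}
  {ε : SchemeHomOver (𝟙 (Spec (CommRingCat.of k))) c}

/-- DICT-UNIT over algebraically closed fields: the unit bundle on `C_K` corresponds to the unit
gluing datum. -/
def DictUnitField (Ch : ChartOf c ε) : Prop :=
  ∀ (K : Type u) [Field K] [IsAlgClosed K] [Algebra k K],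
    Corr Ch K (RigidifiedLineBundle.unit (c := c) (ε := ε) (specStr k K)).L
      (GlueDatum.unit K (K ⊗[k] Ch.B₀) (K ⊗[k] Ch.B₁) (K ⊗[k] Ch.B₀₁))

section Bridge

variable (Ch : ChartOf c ε) (hSec : Stmt.DictSections Ch) (hIso : Stmt.DictIso Ch)
  (hBC : Stmt.DictBC Ch) (hEx : Stmt.AlgBCExists Ch) (hUnit : DictUnitField Ch)
  (hDiso : DegIsoInvariant k Ch.B₀ Ch.B₁ Ch.B₀₁)
  (hDext : DegFieldInvariant k Ch.B₀ Ch.B₁ Ch.B₀₁)
  (hDconst : DegConstOnDomains k Ch.B₀ Ch.B₁ Ch.B₀₁)

include hSec hIso hBC hEx hUnit hDiso hDconst in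
/-- Over an algebraically closed field: a bundle algebraically equivalent to zero has degree
zero (for every gluing datum corresponding to it). -/
theorem degree_eq_zero_of_pointAlgEquivZero {K : Type u} [Field K] [IsAlgClosed K] [Algebra k K]
    (L : RigidifiedLineBundle c ε (specStr k K)) (hL : PointAlgEquivZero L)
    (G : CurveGD k Ch.B₀ Ch.B₁ Ch.B₀₁ K) (hG : Corr Ch K L.L G) : G.degree = 0 := by
  refine pointAlgEquivZero_induction
    (fun L => ∀ G : CurveGD k Ch.B₀ Ch.B₁ Ch.B₀₁ K, Corr Ch K L.L G → G.degree = 0)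
    ?_ ?_ ?_ L hL G hG
  · -- isomorphism invariance
    intro L L' hLL' hP G' hG'
    obtain ⟨G, hG, -⟩ := hSec K L
    rw [← hDiso K G G' ((hIso K L L' G G' hG hG').1 hLL')]
    exact hP G hG
  · -- the unit bundle
    intro G hG
    have h1 := (hIso K _ _ _ G (hUnit K) hG).1 ⟨Iso.refl _⟩
    rw [← hDiso K _ G h1]
    exact degree_unit_eq_zero k Ch.B₀ Ch.B₁ Ch.B₀₁ K
  · -- constancy along affine integral families
    intro 𝔉 a b hP G hG
    obtain ⟨GM, hGM, -⟩ := hSec 𝔉.A 𝔉.M
    obtain ⟨Ga, hGa⟩ := hEx 𝔉.A K (a.restrictScalars k) GM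
    obtain ⟨Gb, hGb⟩ := hEx 𝔉.A K (b.restrictScalars k) GM
    have hCa : Corr Ch K (𝔉.fibre a).L Ga := hBC 𝔉.A K _ 𝔉.M GM Ga hGM hGa
    have hCb : Corr Ch K (𝔉.fibre b).L Gb := hBC 𝔉.A K _ 𝔉.M GM Gb hGM hGb
    have h0 : Ga.degree = 0 := hP Ga hCa
    have h1 : Gb.degree = 0 := by
      rw [← hDconst 𝔉.A GM K _ _ Ga Gb hGa hGb]; exact h0
    have h2 := (hIso K _ _ Gb G hCb hG).1 ⟨Iso.refl _⟩
    rw [← hDiso K Gb G h2]
    exact h1

include hSec hIso hBC hEx hUnit hDiso hDext hDconst in
/-- **DICTDEG (⇒)**: a fibrewise algebraically-equivalent-to-zero rigidified line bundle over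
`Spec A` has fibrewise degree zero. -/
theorem deg0_of_fibrewiseAlgEquivZero (A : Type u) [CommRing A] [Algebra k A]
    (M : RigidifiedLineBundle c ε (specStr k A)) (G : CurveGD k Ch.B₀ Ch.B₁ Ch.B₀₁ A)
    (hG : Corr Ch A M.L G) (hM : FibrewiseAlgEquivZero M) : G.Deg0 := by
  intro K _ _ φ G' hG'
  -- pass to an algebraic closure of `K`
  let ι : K →ₐ[k] AlgebraicClosure K := IsScalarTower.toAlgHom k K (AlgebraicClosure K)
  obtain ⟨G'', hG''⟩ := hEx K (AlgebraicClosure K) ι G'
  rw [← hDext K (AlgebraicClosure K) ι G' G'' hG'']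
  have hC' : Corr Ch K (M.pullbackAlong (specHomOver k φ)).L G' := hBC A K φ M G G' hG hG'
  have hC'' : Corr Ch (AlgebraicClosure K)
      ((M.pullbackAlong (specHomOver k φ)).pullbackAlong (specHomOver k ι)).L G'' :=
    hBC K (AlgebraicClosure K) ι _ G' G'' hC' hG''
  have hMK : FibrewiseAlgEquivZero (M.pullbackAlong (specHomOver k φ)) := hM.pullback _
  have hL : PointAlgEquivZero
      ((M.pullbackAlong (specHomOver k φ)).pullbackAlong (specHomOver k ι)) :=
    FibrewiseAlgEquivZero_pointAlgEquivZero hMK (AlgebraicClosure K) (specHomOver k ι)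
  exact degree_eq_zero_of_pointAlgEquivZero Ch hSec hIso hBC hEx hUnit hDiso hDconst _ hL G'' hC''

end Bridge

end

end Fermat.Agent.S25.H865
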