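import Fermat.Agent.S25.H865.AlgEquivChain

/-!
# Row S25, block DICTDEG: `FamilyData` (exact statement of `H687.FamilyData`, DDDefs.lean)

An algebraic equivalence to zero of a rigidified line bundle `L` over an algebraically closed
field `K` yields two rigidified families `N₀`, `N₁` over domains `A₀`, `A₁`, with `K`-points
`a₀`, `a₁` at which the fibres are the trivial bundle resp. `L`, and which become isomorphic
over a common field `F`.  Here `F = K`: the two affine charts of the parameter space meet in a
`K`-rational point (`exists_linked_chain_of_pointAlgEquivZero`).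
-/

set_option autoImplicit false
universe u
open CategoryTheory CategoryTheory.Limits AlgebraicGeometry AlgebraicGeometry.RelPicard
  NeronModelInfra GoodReductionJacobian
open scoped TensorProduct

namespace Fermat.Agent.S25.H865

noncomputable section

variable {k : Type u} [Field k] {C : Scheme.{u}} (c : C ⟶ Spec (CommRingCat.of k))
  (ε : SchemeHomOver (𝟙 (Spec (CommRingCat.of k))) c)

/-- **FAMILY-DATA**, verbatim the body of `Fermat.Agent.S25.H687.FamilyData c ε`; moreover the
rings `A₀`, `A₁` are of finite type over `K = F` (not recorded in the statement). -/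
theorem familyData :
    ∀ (K : Type u) [Field K] [IsAlgClosed K] [Algebra k K]
      (L : RigidifiedLineBundle c ε (specStr k K)),
      IsAlgEquivZero (pullback.snd c (specStr k K)) L.L →
      ∃ (A₀ A₁ F : Type u) (_ : CommRing A₀) (_ : CommRing A₁) (_ : Field F)
        (_ : IsDomain A₀) (_ : IsDomain A₁)
        (_ : Algebra k A₀) (_ : Algebra k A₁) (_ : Algebra k F)
        (N₀ : RigidifiedLineBundle c ε (specStr k A₀))
        (N₁ : RigidifiedLineBundle c ε (specStr k A₁))
        (a₀ : A₀ →ₐ[k] K) (a₁ : A₁ →ₐ[k] K) (b₀ : A₀ →ₐ[k] F) (b₁ : A₁ →ₐ[k] F),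
        RIso (N₀.pullbackAlong (specHomOver k a₀)) (RigidifiedLineBundle.unit (specStr k K)) ∧
        RIso (N₁.pullbackAlong (specHomOver k a₁)) L ∧
        RIso (N₀.pullbackAlong (specHomOver k b₀)) (N₁.pullbackAlong (specHomOver k b₁)) := by
  intro K _ _ _ L hL
  obtain ⟨L₂, ⟨𝔉₀, a₀, b₀, ha₀, hb₀⟩, ⟨𝔉₁, a₁, b₁, ha₁, hb₁⟩⟩ :=
    exists_linked_chain_of_pointAlgEquivZero L hL
  exact ⟨𝔉₀.A, 𝔉₁.A, K, inferInstance, inferInstance, inferInstance, inferInstance,
    inferInstance, inferInstance, inferInstance, inferInstance, 𝔉₀.M, 𝔉₁.M,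
    a₀.restrictScalars k, b₁.restrictScalars k, b₀.restrictScalars k, a₁.restrictScalars k,
    ha₀, hb₁, ⟨hb₀.some ≪≫ ha₁.some.symm⟩⟩

end

end Fermat.Agent.S25.H865
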